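import Fermat.Agent.S27.LSpace.Core

/-!
# S27 / WP A1, characteristic free core (owner: helper12): Riemann's bound

`deg D - l(D)` is bounded above (Stichtenoth 1.4.14), under `FFBase K F` and the existence of a
transcendental `x` with `[F : K(x)] < ∞` and `deg (x)_∞ ≤ [F : K(x)]`.
-/

set_option autoImplicit false

open AlgebraicCurve WithZero Module IntermediateField

namespace Fermat.Agent.S27

namespace FFBase

variable {K F : Type*} [Field K] [Field F] [Algebra K F]

theorem linearIndependent_pow_of_transcendental {x : F} (hx : Transcendental K x) :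
    LinearIndependent K (fun i : ℕ => x ^ i) := by
  have h := (Polynomial.basisMonomials K).linearIndependent.map' (Polynomial.aeval x).toLinearMap
    (LinearMap.ker_eq_bot.2 (transcendental_iff_injective.1 hx))
  have e : (fun i : ℕ => x ^ i) =
      (Polynomial.aeval x).toLinearMap ∘ (Polynomial.basisMonomials K) := by
    ext i
    simp
  rw [e]
  exact h

variable [FFBase K F]

/-- `deg D - l(D)` is monotone. -/
theorem degree_sub_finrank_mono {D E : Divisor K F} (h : D ≤ E) :
    Divisor.degree D - finrank K (riemannRochSpace D) ≤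
      Divisor.degree E - finrank K (riemannRochSpace E) := by
  have := finrank_L_le_add h
  omega

/-- second half of Stichtenoth 1.4.14: a bound for the multiples of one divisor of positive degree
gives a bound for all divisors. -/
theorem riemann_bound_of_multiples (B : Divisor K F) (γ : ℤ) (hB : 0 < Divisor.degree B)
    (h : ∀ l : ℕ, Divisor.degree (l • B) - γ ≤ (finrank K (riemannRochSpace (l • B)) : ℤ))
    (D : Divisor K F) : Divisor.degree D - finrank K (riemannRochSpace D) ≤ γ := by
  obtain ⟨A, hA0, hDA⟩ := posPart_ge D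
  refine (degree_sub_finrank_mono hDA).trans ?_
  obtain ⟨l, hl⟩ : ∃ l : ℕ, γ + Divisor.degree A < l * Divisor.degree B := by
    refine ⟨(γ + Divisor.degree A).toNat + 1, ?_⟩
    have h1 : γ + Divisor.degree A ≤ ((γ + Divisor.degree A).toNat : ℤ) := Int.self_le_toNat _
    push_cast
    nlinarith
  have h1 : l • B - A ≤ l • B := sub_le_self _ hA0
  have h2 := finrank_L_le_add h1
  have h3 := h l
  rw [map_sub, map_nsmul, nsmul_eq_mul] at h2
  rw [map_nsmul, nsmul_eq_mul] at h3
  have h4 : 0 < finrank K (riemannRochSpace (l • B - A)) := by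
    have : (0 : ℤ) < finrank K (riemannRochSpace (l • B - A)) := by linarith
    exact_mod_cast this
  have h5 : riemannRochSpace (l • B - A) ≠ ⊥ := by
    intro h0
    rw [h0, finrank_bot] at h4
    exact lt_irrefl _ h4
  obtain ⟨z, hz, hz0⟩ := (Submodule.ne_bot_iff _).1 h5
  have h6 := effective_of_mem_L hz0 hz
  have h7 : A + dv z⁻¹ ≤ l • B := by
    rw [dv_inv]
    have : l • B - (A + - dv z) = l • B - A + dv z := by abel
    rw [← sub_nonneg, this]
    exact h6
  have h8 := degree_sub_finrank_mono h7
  rw [finrank_L_add_dv A (inv_ne_zero hz0), map_add, degree_dv, add_zero, map_nsmul,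
    nsmul_eq_mul] at h8
  linarith

theorem poleDiv_ne_zero_of_transcendental {x : F} (hx : Transcendental K x) :
    0 < Divisor.degree (poleDiv (K := K) x) := by
  refine lt_of_le_of_ne (degree_nonneg (poleDiv_nonneg x)) ?_
  intro h
  have h0 := eq_zero_of_degree_eq_zero (poleDiv_nonneg x) h.symm
  have h1 := mem_L_poleDiv (K := K) x
  rw [h0, mem_L_zero_iff] at h1
  obtain ⟨c, rfl⟩ := h1
  exact hx (isAlgebraic_algebraMap c)

/-- first half of Stichtenoth 1.4.14. -/
theorem riemann_bound_multiples (x : F) (hx : Transcendental K x) [FiniteDimensional K⟮x⟯ F]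
    (hdeg : Divisor.degree (poleDiv (K := K) x) ≤ finrank K⟮x⟯ F) :
    ∃ γ : ℤ, ∀ l : ℕ, Divisor.degree (l • poleDiv (K := K) x) - γ ≤
      (finrank K (riemannRochSpace (l • poleDiv (K := K) x)) : ℤ) := by
  classical
  set n := finrank K⟮x⟯ F with hn
  set B := poleDiv (K := K) x with hBdef
  let b : Basis (Fin n) K⟮x⟯ F := finBasis K⟮x⟯ F
  let C : Divisor K F := ∑ j, poleDiv (K := K) (b j)
  have hC0 : 0 ≤ C := Finset.sum_nonneg fun j _ => poleDiv_nonneg _
  have hbC : ∀ j, b j ∈ riemannRochSpace C := by
    intro j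
    refine L_mono ?_ (mem_L_poleDiv (K := K) (b j))
    exact Finset.single_le_sum (f := fun j => poleDiv (K := K) (b j))
      (fun j _ => poleDiv_nonneg _) (Finset.mem_univ j)
  refine ⟨Divisor.degree C, fun l => ?_⟩
  -- the independent family
  have hpow : LinearIndependent K (fun i : Fin (l + 1) => (AdjoinSimple.gen K x) ^ (i : ℕ)) := by
    have h1 : LinearIndependent K (fun i : Fin (l + 1) => x ^ (i : ℕ)) :=
      (linearIndependent_pow_of_transcendental hx).comp _ Fin.val_injective
    refine LinearIndependent.of_comp (K⟮x⟯.val.toLinearMap) ?_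
    convert h1 using 1
    ext i
    simp
  have hind := linearIndependent_smul hpow b.linearIndependent
  have hmem : ∀ p : Fin (l + 1) × Fin n,
      (AdjoinSimple.gen K x) ^ (p.1 : ℕ) • b p.2 ∈ riemannRochSpace (l • B + C) := by
    intro p
    have e : (AdjoinSimple.gen K x) ^ (p.1 : ℕ) • b p.2 = x ^ (p.1 : ℕ) * b p.2 := by
      rw [Algebra.smul_def, map_pow, AdjoinSimple.algebraMap_gen]
    rw [e]
    refine mul_mem_L ?_ (hbC p.2)
    refine L_mono ?_ (pow_mem_L (mem_L_poleDiv (K := K) x) (p.1 : ℕ))
    exact nsmul_le_nsmul_left (poleDiv_nonneg x) (Nat.lt_succ_iff.1 p.1.2)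
  have hind' : LinearIndependent K (fun p : Fin (l + 1) × Fin n =>
      (⟨(AdjoinSimple.gen K x) ^ (p.1 : ℕ) • b p.2, hmem p⟩ : riemannRochSpace (l • B + C))) := by
    refine LinearIndependent.of_comp (riemannRochSpace (l • B + C)).subtype ?_
    exact hind
  have hcard := hind'.fintype_card_le_finrank
  rw [Fintype.card_prod, Fintype.card_fin, Fintype.card_fin] at hcard
  have h1 : l • B ≤ l • B + C := le_add_of_nonneg_right hC0
  have h2 := finrank_L_le_add h1
  rw [map_add, map_nsmul, nsmul_eq_mul] at h2
  rw [map_nsmul, nsmul_eq_mul]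
  have h3 : ((l + 1) * n : ℤ) ≤ finrank K (riemannRochSpace (l • B + C)) := by
    exact_mod_cast hcard
  have h4 : (l : ℤ) * Divisor.degree B ≤ l * n := by
    gcongr
  nlinarith

/-- **Riemann's bound** (Stichtenoth 1.4.14), characteristic free form. -/
theorem exists_riemann_bound (x : F) (hx : Transcendental K x) [FiniteDimensional K⟮x⟯ F]
    (hdeg : Divisor.degree (poleDiv (K := K) x) ≤ finrank K⟮x⟯ F) :
    ∃ γ : ℤ, ∀ D : Divisor K F, Divisor.degree D - finrank K (riemannRochSpace D) ≤ γ := by
  obtain ⟨γ, hγ⟩ := riemann_bound_multiples x hx hdeg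
  exact ⟨γ, riemann_bound_of_multiples _ γ (poleDiv_ne_zero_of_transcendental hx) hγ⟩

end FFBase

end Fermat.Agent.S27
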