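import Fermat.Agent.S27.LSpace
import Fermat.Agent.RR.LSpace

/-!
# S27: the instance `IsFF K F → RR.IsFF1 K F` (characteristic zero) (owner: helper12)
-/

set_option autoImplicit false

open AlgebraicCurve

namespace Fermat.Agent.S27

variable {K F : Type*} [Field K] [Field F] [Algebra K F]

instance instIsFF1 [IsAlgClosed K] [CharZero K] [IsFF K F] : RR.IsFF1 K F := by
  obtain ⟨x, hx⟩ := IsFF.exists_param (K := K) (F := F)
  have := hx.finite
  exact RR.IsFF1.of_param x hx.transcendental (degree_poleDiv hx).le

end Fermat.Agent.S27
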