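import Mathlib
import Fermat.Prelude.Def_AlgebraicCurve_Repartitions
import Fermat.Agent.S24.FF.Basic

/-!
# S27 / WP A1, characteristic free core (owner: helper12)

Riemann-Roch spaces `L(D) = riemannRochSpace D` under the minimal hypotheses `FFBase K F`:
* principal divisors exist and have degree `0` (`HasPrincipalDivisors`, Prelude),
* all residue fields are `K`,
* there is at least one place.
No hypothesis on the characteristic, no `IsAlgClosed`, no parameter.
-/

set_option autoImplicit false

open AlgebraicCurve WithZero Module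

namespace Fermat.Agent.S27

/-- minimal, characteristic free, hypotheses for the elementary theory of `L(D)`. -/
class FFBase (K F : Type*) [Field K] [Field F] [Algebra K F] : Prop
    extends HasPrincipalDivisors K F where
  residue_surjective : ∀ v : Place K F, Function.Surjective (algebraMap K v.ResidueField)
  nonempty_place : Nonempty (Place K F)

namespace FFBase

variable {K F : Type*} [Field K] [Field F] [Algebra K F]

section NoHyp

variable (v : Place K F)

theorem adic_le_one_iff {f : F} : v.adicValuation f ≤ 1 ↔ f ∈ v.toValuationSubring := by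
  constructor
  · intro h
    rcases eq_or_ne f 0 with rfl | hf
    · exact v.toValuationSubring.zero_mem
    · rw [S24.Place.mem_iff_ord_nonneg v hf]
      rcases v.adicValuation_le_one_iff.1 h with h | h
      · exact absurd h hf
      · exact h
  · exact v.adicValuation_le_one_of_mem

theorem lt_exp_add_one_iff {a : ℤᵐ⁰} {n : ℤ} : a < exp (n + 1) ↔ a ≤ exp n := by
  rw [exp_add]
  exact lt_mul_exp_iff_le exp_ne_zero

theorem adic_const {c : K} (hc : c ≠ 0) : v.adicValuation (algebraMap K F c) = 1 := by
  have h0 : algebraMap K F c ≠ 0 := by simpa using hc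
  rw [v.adicValuation_eq_exp_neg_ord h0, S24.Place.ord_algebraMap]
  simp

theorem adic_smul_le (c : K) (f : F) : v.adicValuation (c • f) ≤ v.adicValuation f := by
  rw [Algebra.smul_def, map_mul]
  exact mul_le_of_le_one_left' (v.adicValuation_algebraMap_le_one c)

theorem exists_unif_zpow (n : ℤ) : ∃ s : F, s ≠ 0 ∧ v.adicValuation s = exp n := by
  obtain ⟨t, ht0, -, ht⟩ := S24.Place.exists_uniformizer v
  refine ⟨t ^ (-n), zpow_ne_zero _ ht0, ?_⟩
  rw [v.adicValuation_eq_exp_neg_ord (zpow_ne_zero _ ht0), v.ord_zpow, ht]
  simp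

end NoHyp

section Value

variable [FFBase K F] (v : Place K F)

theorem exists_value {f : F} (hf : v.adicValuation f ≤ 1) :
    ∃ c : K, v.adicValuation (f - algebraMap K F c) < 1 := by
  have hm := (adic_le_one_iff v).1 hf
  obtain ⟨c, hc⟩ := FFBase.residue_surjective v (IsLocalRing.residue _ ⟨f, hm⟩)
  refine ⟨c, ?_⟩
  have h1 : algebraMap K v.ResidueField c =
      IsLocalRing.residue _ (algebraMap K v.toValuationSubring c) := rfl
  rw [h1] at hc
  have h2 : IsLocalRing.residue v.toValuationSubring
      (⟨f, hm⟩ - algebraMap K v.toValuationSubring c) = 0 := by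
    rw [map_sub, hc, sub_self]
  rw [IsLocalRing.residue_eq_zero_iff, IsLocalRing.mem_maximalIdeal, mem_nonunits_iff] at h2
  have h3 : ((⟨f, hm⟩ - algebraMap K v.toValuationSubring c : v.toValuationSubring) : F) =
      f - algebraMap K F c := rfl
  have h4 := v.adicValuation_le_one_of_mem
    (⟨f, hm⟩ - algebraMap K v.toValuationSubring c : v.toValuationSubring).2
  rw [← h3]
  refine lt_of_le_of_ne h4 ?_
  intro h5
  exact h2 ((v.adicValuation_coe_eq_one_iff _).1 h5)

theorem deg_eq_one : v.deg = 1 := by
  unfold Place.deg
  rw [finrank_eq_one_iff_of_nonzero' (1 : v.ResidueField) one_ne_zero]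
  intro x
  obtain ⟨c, rfl⟩ := FFBase.residue_surjective v x
  exact ⟨c, by rw [Algebra.smul_def, mul_one]⟩

theorem degree_eq_sum (D : Divisor K F) : Divisor.degree D = ∑ v ∈ D.support, D v := by
  conv_lhs => rw [← Finsupp.sum_single D]
  rw [Finsupp.sum, map_sum]
  refine Finset.sum_congr rfl fun v _ => ?_
  rw [Divisor.degree_single, deg_eq_one v]
  simp

theorem degree_single_one : Divisor.degree (Finsupp.single v (1 : ℤ)) = 1 := by
  rw [Divisor.degree_single, deg_eq_one v]
  simp

theorem degree_nonneg {D : Divisor K F} (h : 0 ≤ D) : 0 ≤ Divisor.degree D := by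
  rw [degree_eq_sum]
  exact Finset.sum_nonneg fun v _ => h v

theorem degree_mono {D E : Divisor K F} (h : D ≤ E) : Divisor.degree D ≤ Divisor.degree E := by
  have := degree_nonneg (sub_nonneg.2 h)
  rw [map_sub] at this
  linarith

theorem eq_zero_of_degree_eq_zero {D : Divisor K F} (h : 0 ≤ D) (hd : Divisor.degree D = 0) :
    D = 0 := by
  rw [degree_eq_sum] at hd
  have := (Finset.sum_eq_zero_iff_of_nonneg fun v _ => h v).1 hd
  ext v
  by_cases hv : v ∈ D.support
  · exact this v hv
  · simpa using hv

end Value

section Div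

variable [FFBase K F]

theorem finite_ord_ne_zero (f : F) : {v : Place K F | v.ord f ≠ 0}.Finite := by
  rcases eq_or_ne f 0 with rfl | hf
  · simp
  · obtain ⟨D, hD, -⟩ := HasPrincipalDivisors.exists_divisor (K := K) f hf
    refine D.support.finite_toSet.subset ?_
    intro v hv
    rw [Finset.mem_coe, Finsupp.mem_support_iff, hD v]
    exact hv

/-- the divisor of a function (`0` for `f = 0`). -/
noncomputable def dv (f : F) : Divisor K F :=
  Finsupp.onFinset (finite_ord_ne_zero (K := K) f).toFinset (fun v => v.ord f)
    (fun v hv => by simpa using hv)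

theorem dv_apply (f : F) (v : Place K F) : dv (K := K) f v = v.ord f := rfl

theorem degree_dv (f : F) : Divisor.degree (dv (K := K) f) = 0 := by
  rcases eq_or_ne f 0 with rfl | hf
  · have : dv (K := K) (0 : F) = 0 := by
      ext v
      simp [dv_apply]
    rw [this, map_zero]
  · obtain ⟨D, hD, hd⟩ := HasPrincipalDivisors.exists_divisor (K := K) f hf
    have : dv (K := K) f = D := by
      ext v
      rw [dv_apply, hD v]
    rw [this, hd]

theorem dv_mul {f g : F} (hf : f ≠ 0) (hg : g ≠ 0) :
    dv (K := K) (f * g) = dv f + dv g := by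
  ext v
  rw [Finsupp.add_apply, dv_apply, dv_apply, dv_apply, v.ord_mul hf hg]

theorem dv_inv (f : F) : dv (K := K) f⁻¹ = - dv f := by
  ext v
  rw [Finsupp.neg_apply, dv_apply, dv_apply, v.ord_inv]

theorem mem_principal_iff {D : Divisor K F} :
    D ∈ Divisor.principal (K := K) (F := F) ↔ ∃ f : F, f ≠ 0 ∧ D = dv f := by
  constructor
  · rintro ⟨f, hf, h⟩
    exact ⟨f, hf, by ext v; rw [h v, dv_apply]⟩
  · rintro ⟨f, hf, rfl⟩
    exact ⟨f, hf, fun v => rfl⟩

/-- the pole divisor of a function. -/
noncomputable def poleDiv (f : F) : Divisor K F :=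
  Finsupp.onFinset (finite_ord_ne_zero (K := K) f).toFinset (fun v => max 0 (- v.ord f))
    (fun v hv => by
      simp only [Set.Finite.mem_toFinset, Set.mem_ofPred_eq]
      intro h
      rw [h] at hv
      simp at hv)

theorem poleDiv_apply (f : F) (v : Place K F) : poleDiv (K := K) f v = max 0 (- v.ord f) := rfl

theorem poleDiv_nonneg (f : F) : 0 ≤ poleDiv (K := K) f := fun v => by
  rw [poleDiv_apply]
  exact le_max_left _ _

end Div

section L

theorem mem_L_iff {D : Divisor K F} {f : F} :
    f ∈ riemannRochSpace D ↔ ∀ v : Place K F, v.adicValuation f ≤ exp (D v) := Iff.rfl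

theorem L_mono {D E : Divisor K F} (h : D ≤ E) : riemannRochSpace D ≤ riemannRochSpace E :=
  fun _ hf v => (hf v).trans (exp_le_exp.2 (h v))

theorem mul_mem_L {D E : Divisor K F} {f g : F} (hf : f ∈ riemannRochSpace D)
    (hg : g ∈ riemannRochSpace E) : f * g ∈ riemannRochSpace (D + E) := by
  intro v
  rw [map_mul, Finsupp.add_apply, exp_add]
  exact mul_le_mul' (hf v) (hg v)

theorem one_mem_L_zero : (1 : F) ∈ riemannRochSpace (0 : Divisor K F) := by
  intro v
  simp

theorem pow_mem_L {D : Divisor K F} {f : F} (hf : f ∈ riemannRochSpace D) (n : ℕ) :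
    f ^ n ∈ riemannRochSpace (n • D) := by
  induction n with
  | zero => simpa using one_mem_L_zero
  | succ n ih =>
    rw [pow_succ, succ_nsmul]
    exact mul_mem_L ih hf

variable [FFBase K F]

theorem mem_L_poleDiv (f : F) : f ∈ riemannRochSpace (poleDiv (K := K) f) := by
  rw [mem_riemannRochSpace_iff]
  intro v
  right
  rw [poleDiv_apply]
  have := le_max_right 0 (- v.ord f)
  omega

/-- a nonzero element of `L(D)` gives an effective divisor linearly equivalent to `D`. -/
theorem effective_of_mem_L {D : Divisor K F} {f : F} (hf : f ≠ 0) (h : f ∈ riemannRochSpace D) :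
    0 ≤ D + dv f := by
  intro v
  rw [Finsupp.add_apply, dv_apply]
  rcases mem_riemannRochSpace_iff.1 h v with h | h
  · exact absurd h hf
  · simp only [Finsupp.coe_zero, Pi.zero_apply]
    omega

theorem L_eq_bot_of_degree_neg {D : Divisor K F} (h : Divisor.degree D < 0) :
    riemannRochSpace D = ⊥ := by
  rw [Submodule.eq_bot_iff]
  intro f hf
  by_contra hf0
  have := degree_nonneg (effective_of_mem_L hf0 hf)
  rw [map_add, degree_dv] at this
  omega

omit [FFBase K F] in
theorem const_mem_L_zero (c : K) : algebraMap K F c ∈ riemannRochSpace (0 : Divisor K F) := by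
  intro v
  simpa using v.adicValuation_algebraMap_le_one c

theorem mem_L_zero_iff {f : F} :
    f ∈ riemannRochSpace (0 : Divisor K F) ↔ f ∈ Set.range (algebraMap K F) := by
  constructor
  · intro hf
    obtain ⟨v⟩ := FFBase.nonempty_place (K := K) (F := F)
    obtain ⟨c, hc⟩ := exists_value v (f := f) (by simpa using hf v)
    refine ⟨c, ?_⟩
    by_contra hne
    have hg0 : f - algebraMap K F c ≠ 0 := fun h => hne (sub_eq_zero.1 h).symm
    have hg : f - algebraMap K F c ∈ riemannRochSpace (0 : Divisor K F) :=
      Submodule.sub_mem _ hf (const_mem_L_zero c)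
    have h1 := effective_of_mem_L hg0 hg
    have h2 := eq_zero_of_degree_eq_zero h1 (by rw [map_add, degree_dv, map_zero, add_zero])
    have h3 : v.ord (f - algebraMap K F c) = 0 := by
      have := DFunLike.congr_fun h2 v
      simpa [dv_apply] using this
    rw [v.adicValuation_eq_exp_neg_ord hg0, h3] at hc
    simp at hc
  · rintro ⟨c, rfl⟩
    exact const_mem_L_zero c

theorem L_zero_eq : riemannRochSpace (0 : Divisor K F) = Submodule.span K {(1 : F)} := by
  ext f
  rw [mem_L_zero_iff, Submodule.mem_span_singleton]
  constructor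
  · rintro ⟨c, rfl⟩
    exact ⟨c, by rw [Algebra.smul_def, mul_one]⟩
  · rintro ⟨c, rfl⟩
    exact ⟨c, by rw [Algebra.smul_def, mul_one]⟩

theorem finrank_L_zero : finrank K (riemannRochSpace (0 : Divisor K F)) = 1 := by
  rw [L_zero_eq]
  exact finrank_span_singleton one_ne_zero

/-- `L(D)` has codimension at most one in `L(D + v)`. -/
theorem L_add_single_le (D : Divisor K F) (v : Place K F) {g : F}
    (hg : g ∈ riemannRochSpace (D + Finsupp.single v 1)) (hg' : g ∉ riemannRochSpace D) :
    riemannRochSpace (D + Finsupp.single v 1) ≤ riemannRochSpace D ⊔ Submodule.span K {g} := by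
  classical
  have hw : ∀ w : Place K F, w ≠ v → (D + Finsupp.single v 1 : Divisor K F) w = D w := by
    intro w hw
    rw [Finsupp.add_apply, Finsupp.single_eq_of_ne hw, add_zero]
  have hv : (D + Finsupp.single v 1 : Divisor K F) v = D v + 1 := by
    rw [Finsupp.add_apply, Finsupp.single_eq_same]
  have hgv : ¬ v.adicValuation g ≤ exp (D v) := by
    intro h
    apply hg'
    intro w
    by_cases hwv : w = v
    · subst hwv; exact h
    · rw [← hw w hwv]; exact hg w
  have hgv' : v.adicValuation g = exp (D v + 1) := by
    apply le_antisymm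
    · rw [← hv]; exact hg v
    · by_contra h
      exact hgv (lt_exp_add_one_iff.1 (not_le.1 h))
  have hg0 : g ≠ 0 := by
    rintro rfl
    simp at hgv
  intro f hf
  have h1 : v.adicValuation (f / g) ≤ 1 := by
    rw [map_div₀, hgv']
    rw [div_le_one₀ (by simp)]
    rw [← hv]; exact hf v
  obtain ⟨c, hc⟩ := exists_value v h1
  have h2 : f - c • g ∈ riemannRochSpace D := by
    intro w
    by_cases hwv : w = v
    · subst hwv
      have e : f - c • g = g * (f / g - algebraMap K F c) := by
        rw [Algebra.smul_def]; field_simp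
      rw [e, map_mul, hgv', ← lt_exp_add_one_iff]
      calc exp (D w + 1) * w.adicValuation (f / g - algebraMap K F c)
          < exp (D w + 1) * 1 := by
            exact mul_lt_mul_of_pos_left hc (by simp)
        _ = exp (D w + 1) := mul_one _
    · rw [← hw w hwv]
      have h3 : f - c • g ∈ riemannRochSpace (D + Finsupp.single v 1) :=
        Submodule.sub_mem _ hf (Submodule.smul_mem _ c hg)
      exact h3 w
  rw [Submodule.mem_sup]
  exact ⟨f - c • g, h2, c • g, Submodule.smul_mem _ c (Submodule.mem_span_singleton_self g),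
    by ring⟩

/-- induction on divisors `≥ D₀`, adding one place at a time. -/
theorem induction_ge {P : Divisor K F → Prop} (D₀ : Divisor K F) (h0 : P D₀)
    (hs : ∀ (D : Divisor K F) (v : Place K F), D₀ ≤ D → P D → P (D + Finsupp.single v 1)) :
    ∀ D : Divisor K F, D₀ ≤ D → P D := by
  classical
  have key : ∀ (n : ℕ) (D : Divisor K F), D₀ ≤ D → Divisor.degree (D - D₀) = n → P D := by
    intro n
    induction n with
    | zero =>
      intro D hD hd
      have := eq_zero_of_degree_eq_zero (sub_nonneg.2 hD) (by simpa using hd)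
      rw [sub_eq_zero] at this
      rw [this]; exact h0
    | succ n ih =>
      intro D hD hd
      have hne : D - D₀ ≠ 0 := by
        intro h
        rw [h, map_zero] at hd
        push_cast at hd
        omega
      obtain ⟨v, hv⟩ := Finsupp.ne_iff.1 hne
      have hv0 : 0 ≤ (D - D₀) v := (sub_nonneg.2 hD) v
      have hv1 : 1 ≤ (D - D₀) v := by
        have : (D - D₀) v ≠ 0 := by simpa using hv
        omega
      have hD' : D₀ ≤ D - Finsupp.single v 1 := by
        intro w
        rw [Finsupp.sub_apply]
        by_cases hwv : w = v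
        · subst hwv
          rw [Finsupp.single_eq_same]
          rw [Finsupp.sub_apply] at hv1
          omega
        · rw [Finsupp.single_eq_of_ne hwv, sub_zero]
          exact hD w
      have h1 := ih (D - Finsupp.single v 1) hD' (by
        have e : D - Finsupp.single v 1 - D₀ = (D - D₀) - Finsupp.single v 1 := by abel
        rw [e, map_sub, hd, degree_single_one]
        push_cast
        ring)
      have h2 := hs _ v hD' h1
      rwa [sub_add_cancel] at h2
  intro D hD
  have hn := degree_nonneg (sub_nonneg.2 hD)
  exact key (Divisor.degree (D - D₀)).toNat D hD (Int.toNat_of_nonneg hn).symm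

theorem finiteDimensional_L_add_single (D : Divisor K F) (v : Place K F)
    [FiniteDimensional K (riemannRochSpace D)] :
    FiniteDimensional K (riemannRochSpace (D + Finsupp.single v 1)) := by
  by_cases h : ∃ g, g ∈ riemannRochSpace (D + Finsupp.single v 1) ∧ g ∉ riemannRochSpace D
  · obtain ⟨g, hg, hg'⟩ := h
    exact Submodule.finiteDimensional_of_le (L_add_single_le D v hg hg')
  · push Not at h
    exact Submodule.finiteDimensional_of_le (fun g hg => h g hg)

omit [FFBase K F] in
theorem posPart_ge (D : Divisor K F) : ∃ E : Divisor K F, 0 ≤ E ∧ D ≤ E := by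
  refine ⟨D.mapRange (fun n => max n 0) (by simp), ?_, ?_⟩
  · intro v
    simp
  · intro v
    simp

instance finiteDimensional_L (D : Divisor K F) : FiniteDimensional K (riemannRochSpace D) := by
  obtain ⟨E, hE0, hDE⟩ := posPart_ge D
  have h : FiniteDimensional K (riemannRochSpace E) := by
    refine induction_ge (P := fun E => FiniteDimensional K (riemannRochSpace E)) 0 ?_ ?_ E hE0
    · rw [L_zero_eq]
      infer_instance
    · intro D v _ hD
      exact finiteDimensional_L_add_single D v
  exact Submodule.finiteDimensional_of_le (L_mono hDE)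

theorem finrank_L_mono {D E : Divisor K F} (h : D ≤ E) :
    finrank K (riemannRochSpace D) ≤ finrank K (riemannRochSpace E) :=
  Submodule.finrank_mono (L_mono h)

theorem finrank_L_add_single_le (D : Divisor K F) (v : Place K F) :
    finrank K (riemannRochSpace (D + Finsupp.single v 1)) ≤ finrank K (riemannRochSpace D) + 1 := by
  by_cases h : ∃ g, g ∈ riemannRochSpace (D + Finsupp.single v 1) ∧ g ∉ riemannRochSpace D
  · obtain ⟨g, hg, hg'⟩ := h
    calc finrank K (riemannRochSpace (D + Finsupp.single v 1))
        ≤ finrank K ↥(riemannRochSpace D ⊔ Submodule.span K {g}) :=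
          Submodule.finrank_mono (L_add_single_le D v hg hg')
      _ ≤ finrank K (riemannRochSpace D) + finrank K (Submodule.span K {g}) :=
          Submodule.finrank_add_le_finrank_add_finrank _ _
      _ ≤ finrank K (riemannRochSpace D) + 1 := by
          gcongr
          exact (finrank_span_le_card ({g} : Set F)).trans (by simp)
  · push Not at h
    exact (Submodule.finrank_mono (fun g hg => h g hg)).trans (Nat.le_succ _)

/-- `l(E) - l(D) ≤ deg E - deg D` for `D ≤ E`. -/
theorem finrank_L_le_add {D E : Divisor K F} (h : D ≤ E) :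
    (finrank K (riemannRochSpace E) : ℤ) ≤
      finrank K (riemannRochSpace D) + (Divisor.degree E - Divisor.degree D) := by
  refine induction_ge (P := fun E => (finrank K (riemannRochSpace E) : ℤ) ≤
      finrank K (riemannRochSpace D) + (Divisor.degree E - Divisor.degree D)) D (by simp) ?_ E h
  intro E v _ hE
  have := finrank_L_add_single_le E v
  rw [map_add, degree_single_one]
  omega

/-- multiplication by `z` identifies `L(D + div z)` with `L(D)`. -/
theorem map_mul_L (D : Divisor K F) {z : F} (hz : z ≠ 0) :
    (riemannRochSpace (D + dv z)).map (LinearMap.mulLeft K z) = riemannRochSpace D := by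
  ext f
  rw [Submodule.mem_map]
  constructor
  · rintro ⟨g, hg, rfl⟩
    intro v
    have := hg v
    rw [LinearMap.mulLeft_apply, map_mul, v.adicValuation_eq_exp_neg_ord hz]
    rw [Finsupp.add_apply, dv_apply, exp_add] at this
    calc exp (-v.ord z) * v.adicValuation g ≤ exp (-v.ord z) * (exp (D v) * exp (v.ord z)) := by
          gcongr
      _ = exp (D v) := by
          rw [← exp_add, ← exp_add]
          congr 1
          ring
  · intro hf
    refine ⟨z⁻¹ * f, ?_, ?_⟩
    · intro v
      have := hf v
      rw [map_mul, v.adicValuation_eq_exp_neg_ord (inv_ne_zero hz), v.ord_inv, neg_neg,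
        Finsupp.add_apply, dv_apply, exp_add, mul_comm]
      gcongr
    · rw [LinearMap.mulLeft_apply, mul_inv_cancel_left₀ hz]

theorem finrank_L_add_dv (D : Divisor K F) {z : F} (hz : z ≠ 0) :
    finrank K (riemannRochSpace (D + dv z)) = finrank K (riemannRochSpace D) := by
  rw [← map_mul_L D hz]
  exact (Submodule.equivMapOfInjective (LinearMap.mulLeft K z)
    (fun a b h => mul_left_cancel₀ hz h) _).finrank_eq

theorem finrank_L_of_sub_mem {D E : Divisor K F}
    (h : D - E ∈ Divisor.principal (K := K) (F := F)) :
    finrank K (riemannRochSpace D) = finrank K (riemannRochSpace E) := by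
  obtain ⟨z, hz, hD⟩ := mem_principal_iff.1 h
  rw [← finrank_L_add_dv E hz, ← hD, add_sub_cancel]

/-- `l(D) ≤ deg D + 1` for `deg D ≥ -1`. -/
theorem finrank_L_le_degree_add_one {D : Divisor K F} (h : -1 ≤ Divisor.degree D) :
    (finrank K (riemannRochSpace D) : ℤ) ≤ Divisor.degree D + 1 := by
  by_cases h0 : riemannRochSpace D = ⊥
  · rw [h0, finrank_bot]
    push_cast
    omega
  · obtain ⟨f, hf, hf0⟩ := (Submodule.ne_bot_iff _).1 h0
    have h1 := finrank_L_le_add (effective_of_mem_L hf0 hf)
    rw [finrank_L_add_dv D hf0, finrank_L_zero, map_add, degree_dv, map_zero] at h1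
    push_cast at h1
    omega

/-- a divisor of degree zero with `L(D) ≠ 0` is principal (up to sign). -/
theorem neg_mem_principal_of_degree_eq_zero {D : Divisor K F} (hd : Divisor.degree D = 0) {f : F}
    (hf0 : f ≠ 0) (hf : f ∈ riemannRochSpace D) : D = - dv f := by
  have h1 := eq_zero_of_degree_eq_zero (effective_of_mem_L hf0 hf)
    (by rw [map_add, degree_dv, hd, add_zero])
  exact eq_neg_of_add_eq_zero_left h1

end L

end FFBase

end Fermat.Agent.S27
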